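import Mathlib
import Fermat.Prelude.Def_CuspForm_HeckeAlgebra
import Fermat.Prelude.Def_CuspForm_IntegralStructure
import Fermat.Prelude.Thm_CongruenceSubgroup_one_mem_strictPeriods_Gamma0
import Fermat.Prelude.Thm_ModularForm_sturm_bound_Gamma0
import Fermat.Prelude.Thm_ModularFormClass_qCoeff_heckeT
import Fermat.Prelude.Thm_ModularFormClass_qCoeff_heckeU

set_option autoImplicit false

/-!
# `q`-coefficients, finite dimensionality and the Hecke duality on `S_k(Γ₀(N))`
-/

open ModularFormClass CongruenceSubgroup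

namespace Fermat.Agent.Hecke

noncomputable section

variable {N : ℕ} {k : ℤ}

theorem one_mem_periods (N : ℕ) :
    (1 : ℝ) ∈ (Gamma0 N : Subgroup (GL (Fin 2) ℝ)).strictPeriods :=
  CongruenceSubgroup.one_mem_strictPeriods_Gamma0 N

/-- The `n`-th `q`-coefficient as a linear form on cusp forms. -/
def qCoeffLin (N : ℕ) (k : ℤ) (n : ℕ) : CuspForm (Gamma0 N) k →ₗ[ℂ] ℂ where
  toFun f := qCoeff f n
  map_add' f g := by
    simp only [qCoeff, FunLike.coe_add]
    rw [ModularForm.qExpansion_add one_pos (one_mem_periods N) f g, map_add]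
  map_smul' c f := by
    have h1 : ⇑(c • f) = c • ⇑f := by
      ext z
      simp
    simp only [qCoeff, h1]
    rw [ModularForm.qExpansion_smul one_pos (one_mem_periods N) c f]
    simp

@[simp] theorem qCoeffLin_apply (n : ℕ) (f : CuspForm (Gamma0 N) k) :
    qCoeffLin N k n f = qCoeff f n := rfl

theorem qCoeff_sub_smul (f g : CuspForm (Gamma0 N) k) (c : ℂ) (n : ℕ) :
    qCoeff (⇑(f - c • g)) n = qCoeff f n - c * qCoeff g n := by
  have h := map_sub (qCoeffLin N k n) f (c • g)
  rw [map_smul] at h
  exact h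

theorem qCoeff_add (f g : CuspForm (Gamma0 N) k) (n : ℕ) :
    qCoeff (⇑(f + g)) n = qCoeff f n + qCoeff g n :=
  map_add (qCoeffLin N k n) f g

theorem qCoeff_smul (c : ℂ) (f : CuspForm (Gamma0 N) k) (n : ℕ) :
    qCoeff (⇑(c • f)) n = c * qCoeff f n :=
  map_smul (qCoeffLin N k n) c f

theorem qCoeff_zero_eq (f : CuspForm (Gamma0 N) k) : qCoeff f 0 = 0 :=
  CuspFormClass.qExpansion_coeff_zero f one_pos (one_mem_periods N)

/-- The Sturm bound index. -/
def sturmIndex (N : ℕ) (k : ℤ) : ℕ := (k * (Gamma0 N).index).toNat / 12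

theorem eq_zero_of_qCoeff_le [NeZero N] (f : CuspForm (Gamma0 N) k)
    (h : ∀ n ≤ sturmIndex N k, qCoeff f n = 0) : f = 0 := by
  have h0 : CuspForm.toModularFormₗ f = 0 :=
    ModularForm.sturm_bound_Gamma0 N _ fun n hn => h n hn
  exact CuspForm.toModularFormₗ_injective (by rw [h0, map_zero])

theorem eq_zero_of_forall_qCoeff [NeZero N] (f : CuspForm (Gamma0 N) k)
    (h : ∀ n, qCoeff f n = 0) : f = 0 :=
  eq_zero_of_qCoeff_le f fun n _ => h n

theorem ext_of_forall_qCoeff [NeZero N] (f g : CuspForm (Gamma0 N) k)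
    (h : ∀ n, qCoeff f n = qCoeff g n) : f = g := by
  rw [← sub_eq_zero]
  apply eq_zero_of_forall_qCoeff
  intro n
  rw [← qCoeffLin_apply, map_sub, qCoeffLin_apply, qCoeffLin_apply, h n, sub_self]

/-- The first `q`-coefficients. -/
def truncLin (N : ℕ) (k : ℤ) : CuspForm (Gamma0 N) k →ₗ[ℂ] (Fin (sturmIndex N k + 1) → ℂ) :=
  LinearMap.pi fun i => qCoeffLin N k i

theorem truncLin_injective (N : ℕ) [NeZero N] (k : ℤ) : Function.Injective (truncLin N k) := by
  refine (injective_iff_map_eq_zero _).mpr fun f hf ↦ ?_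
  apply eq_zero_of_qCoeff_le
  intro n hn
  exact congrFun hf ⟨n, Nat.lt_succ_of_le hn⟩

instance finiteDimensional_cuspForm (N : ℕ) [NeZero N] (k : ℤ) :
    FiniteDimensional ℂ (CuspForm (Gamma0 N) k) :=
  FiniteDimensional.of_injective (truncLin N k) (truncLin_injective N k)

theorem qCoeff_heckeTLin {p : ℕ} (hp : p.Prime) (hpN : ¬ p ∣ N) (f : CuspForm (Gamma0 N) k)
    (n : ℕ) : qCoeff (CuspForm.heckeTLin k hp hpN f) n =
      qCoeff f (n * p) + if p ∣ n then (p : ℂ) ^ (k - 1) * qCoeff f (n / p) else 0 := by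
  rw [CuspForm.coe_heckeTLin_apply]
  exact ModularFormClass.qCoeff_heckeT f (one_mem_periods N) hp.ne_zero n

theorem qCoeff_heckeULin [NeZero N] {p : ℕ} (hp : p.Prime) (hpN : p ∣ N)
    (f : CuspForm (Gamma0 N) k) (n : ℕ) :
    qCoeff (CuspForm.heckeULin k hpN f) n = qCoeff f (n * p) := by
  rw [CuspForm.coe_heckeULin_apply]
  exact ModularFormClass.qCoeff_heckeU f (one_mem_periods N) hp.ne_zero n

/-- The complex Hecke algebra generated by all `T_ℓ` and `U_q`. -/
def complexHecke (N : ℕ) [NeZero N] (k : ℤ) :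
    Subalgebra ℂ (Module.End ℂ (CuspForm (Gamma0 N) k)) :=
  Algebra.adjoin ℂ (CuspForm.heckeGenerators N k ∅)

variable (N k) in
instance complexHecke.instIsMulCommutative [NeZero N] : IsMulCommutative (complexHecke N k) :=
  Algebra.isMulCommutative_adjoin ℂ fun _ hT _ hT' =>
    CuspForm.commute_of_mem_heckeGenerators hT hT'

open scoped IsMulCommutative in
instance complexHecke.instCommRing [NeZero N] : CommRing (complexHecke N k) := inferInstance

theorem heckeTLin_mem [NeZero N] {p : ℕ} (hp : p.Prime) (hpN : ¬ p ∣ N) :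
    CuspForm.heckeTLin k hp hpN ∈ complexHecke N k :=
  Algebra.subset_adjoin (CuspForm.heckeTLin_mem_heckeGenerators hp hpN (Set.notMem_empty _))

theorem heckeULin_mem [NeZero N] {p : ℕ} (hp : p.Prime) (hpN : p ∣ N) :
    CuspForm.heckeULin k hpN ∈ complexHecke N k :=
  Algebra.subset_adjoin (CuspForm.heckeULin_mem_heckeGenerators hp hpN (Set.notMem_empty _))

theorem qCoeff_eq_zero_of_first [NeZero N] (n : ℕ) :
    ∀ f : CuspForm (Gamma0 N) k, (∀ t ∈ complexHecke N k, qCoeff (t f) 1 = 0) →
      qCoeff f n = 0 := by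
  induction n using Nat.strong_induction_on with
  | _ n ih =>
    intro f hf
    rcases Nat.eq_zero_or_pos n with rfl | hn
    · exact qCoeff_zero_eq f
    rcases Nat.eq_or_lt_of_le hn with h1 | h1
    · rw [← h1]
      exact hf 1 (one_mem _)
    · obtain ⟨p, hp, m, rfl⟩ := Nat.exists_prime_and_dvd (n := n) (by omega)
      have hm : 0 < m := Nat.pos_of_ne_zero (by rintro rfl; simp at hn)
      have hlt : m < p * m := by nlinarith [hp.two_le]
      by_cases hpN : p ∣ N
      · have h2 := ih m hlt (CuspForm.heckeULin k hpN f) (fun t ht =>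
          hf (t * CuspForm.heckeULin k hpN) (mul_mem ht (heckeULin_mem hp hpN)))
        rw [qCoeff_heckeULin hp hpN, mul_comm] at h2
        exact h2
      · have h2 := ih m hlt (CuspForm.heckeTLin k hp hpN f) (fun t ht =>
          hf (t * CuspForm.heckeTLin k hp hpN) (mul_mem ht (heckeTLin_mem hp hpN)))
        rw [qCoeff_heckeTLin hp hpN, mul_comm m p] at h2
        by_cases hd : p ∣ m
        · have h3 := ih (m / p) (lt_of_le_of_lt (Nat.div_le_self _ _) hlt) f hf
          rw [if_pos hd, h3, mul_zero, add_zero] at h2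
          exact h2
        · rw [if_neg hd, add_zero] at h2
          exact h2

/-- A cusp form whose Hecke translates all have vanishing first coefficient is zero. -/
theorem eq_zero_of_first [NeZero N] (f : CuspForm (Gamma0 N) k)
    (hf : ∀ t ∈ complexHecke N k, qCoeff (t f) 1 = 0) : f = 0 :=
  eq_zero_of_forall_qCoeff f fun n => qCoeff_eq_zero_of_first n f hf

/-- The pairing `(f, t) ↦ a₁(t f)`. -/
def pairing (N : ℕ) [NeZero N] (k : ℤ) :
    CuspForm (Gamma0 N) k →ₗ[ℂ] Module.Dual ℂ (complexHecke N k) where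
  toFun f := (qCoeffLin N k 1).comp
    ((LinearMap.applyₗ f).comp (complexHecke N k).val.toLinearMap)
  map_add' f g := by
    ext t
    simp [map_add]
  map_smul' c f := by
    ext t
    simp [map_smul]

theorem pairing_apply [NeZero N] (f : CuspForm (Gamma0 N) k) (t : complexHecke N k) :
    pairing N k f t = qCoeff ((t : Module.End ℂ (CuspForm (Gamma0 N) k)) f) 1 := rfl

theorem pairing_injective [NeZero N] : Function.Injective (pairing N k) := by
  refine (injective_iff_map_eq_zero _).mpr fun f hf ↦ ?_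
  apply eq_zero_of_first
  intro t ht
  exact LinearMap.congr_fun hf ⟨t, ht⟩

theorem pairing_flip_injective [NeZero N] : Function.Injective (pairing N k).flip := by
  refine (injective_iff_map_eq_zero _).mpr fun t ht ↦ ?_
  apply Subtype.ext
  ext1 f
  rw [ZeroMemClass.coe_zero, LinearMap.zero_apply]
  apply eq_zero_of_first
  intro s hs
  have h1 : pairing N k (s f) t = 0 := LinearMap.congr_fun ht (s f)
  rw [pairing_apply] at h1
  have h2 : (t : Module.End ℂ (CuspForm (Gamma0 N) k)) * s = s * t :=
    congrArg Subtype.val (mul_comm t ⟨s, hs⟩)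
  rw [← Module.End.mul_apply, ← h2]
  exact h1

instance [NeZero N] : FiniteDimensional ℂ (complexHecke N k) :=
  FiniteDimensional.of_injective (complexHecke N k).val.toLinearMap Subtype.val_injective

theorem pairing_surjective [NeZero N] : Function.Surjective (pairing N k) := by
  have h1 : Module.finrank ℂ (complexHecke N k) ≤ Module.finrank ℂ (CuspForm (Gamma0 N) k) := by
    have := LinearMap.finrank_le_finrank_of_injective (pairing_flip_injective (N := N) (k := k))
    rwa [Subspace.dual_finrank_eq] at this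
  have h2 : Module.finrank ℂ (CuspForm (Gamma0 N) k) ≤ Module.finrank ℂ (complexHecke N k) := by
    have := LinearMap.finrank_le_finrank_of_injective (pairing_injective (N := N) (k := k))
    rwa [Subspace.dual_finrank_eq] at this
  have h3 : Module.finrank ℂ (CuspForm (Gamma0 N) k) =
      Module.finrank ℂ (Module.Dual ℂ (complexHecke N k)) := by
    rw [Subspace.dual_finrank_eq]; omega
  exact (LinearMap.injective_iff_surjective_of_finrank_eq_finrank h3).mp pairing_injective

/-- Every system of eigenvalues of the complex Hecke algebra comes from a form normalised by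
`a₁ = 1`. -/
theorem exists_eigenform [NeZero N] (lam : complexHecke N k →ₐ[ℂ] ℂ) :
    ∃ f : CuspForm (Gamma0 N) k, qCoeff f 1 = 1 ∧
      ∀ t : complexHecke N k, (t : Module.End ℂ (CuspForm (Gamma0 N) k)) f = lam t • f := by
  obtain ⟨f, hf⟩ := pairing_surjective (N := N) (k := k) lam.toLinearMap
  have h1 : ∀ t : complexHecke N k,
      qCoeff ((t : Module.End ℂ (CuspForm (Gamma0 N) k)) f) 1 = lam t := fun t =>
    LinearMap.congr_fun hf t
  refine ⟨f, ?_, fun t => ?_⟩
  · have := h1 1
    rw [map_one] at this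
    exact this
  · rw [← sub_eq_zero]
    apply eq_zero_of_first
    intro s hs
    obtain ⟨s', rfl⟩ : ∃ s' : complexHecke N k, (s' : Module.End ℂ (CuspForm (Gamma0 N) k)) = s :=
      ⟨⟨s, hs⟩, rfl⟩
    have h2 := h1 (s' * t)
    rw [map_mul, MulMemClass.coe_mul, Module.End.mul_apply] at h2
    have h3 := h1 s'
    have h4 : (s' : Module.End ℂ (CuspForm (Gamma0 N) k))
          ((t : Module.End ℂ (CuspForm (Gamma0 N) k)) f - lam t • f) =
        (s' : Module.End ℂ (CuspForm (Gamma0 N) k))
          ((t : Module.End ℂ (CuspForm (Gamma0 N) k)) f) -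
        lam t • (s' : Module.End ℂ (CuspForm (Gamma0 N) k)) f := by
      rw [map_sub, map_smul]
    rw [h4, qCoeff_sub_smul, h2, h3]
    ring

end

end Fermat.Agent.Hecke
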