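import Mathlib

set_option autoImplicit false

/-!
# Deligne-Serre lifting: maximal ideals of an integral subring of a finite `ℂ`-algebra
-/

namespace Fermat.Agent.Hecke

/-- A character of a finite dimensional commutative `ℂ`-algebra with given kernel. -/
theorem exists_algHom_of_isPrime {A : Type*} [CommRing A] [Algebra ℂ A] [FiniteDimensional ℂ A]
    (M : Ideal A) [M.IsPrime] : ∃ lam : A →ₐ[ℂ] ℂ, RingHom.ker lam = M := by
  have : Module.Finite ℂ (A ⧸ M) := inferInstance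
  have : Algebra.IsIntegral ℂ (A ⧸ M) := Algebra.IsIntegral.of_finite ℂ (A ⧸ M)
  have hbij : Function.Bijective (algebraMap ℂ (A ⧸ M)) :=
    IsAlgClosed.algebraMap_bijective_of_isIntegral
  let e : ℂ ≃ₐ[ℂ] (A ⧸ M) := AlgEquiv.ofBijective (Algebra.ofId ℂ (A ⧸ M)) hbij
  refine ⟨(e.symm : (A ⧸ M) →ₐ[ℂ] ℂ).comp (Ideal.Quotient.mkₐ ℂ M), ?_⟩
  ext x
  rw [RingHom.mem_ker]
  change e.symm (Ideal.Quotient.mk M x) = 0 ↔ x ∈ M
  rw [map_eq_zero_iff _ e.symm.injective, Ideal.Quotient.eq_zero_iff_mem]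

/-- **Deligne-Serre lifting lemma.** -/
theorem exists_lift_of_isMaximal {T A : Type*} [CommRing T] [CommRing A] [Algebra ℂ A]
    [FiniteDimensional ℂ A] (ι : T →+* A) (hι : Function.Injective ι)
    (hint : ∀ t : T, IsIntegral ℤ t) (𝔪 : Ideal T) [h𝔪 : 𝔪.IsMaximal] :
    ∃ (lam : A →ₐ[ℂ] ℂ) (χ : T →+* integralClosure ℤ ℂ) (𝔪' : Ideal (integralClosure ℤ ℂ)),
      𝔪'.IsMaximal ∧ 𝔪'.comap χ = 𝔪 ∧ ∀ t, (χ t : ℂ) = lam (ι t) := by
  obtain ⟨𝔭, h𝔭, hle⟩ := Ideal.exists_minimalPrimes_le (I := ⊥) (J := 𝔪) bot_le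
  obtain ⟨M, hM, hcomap⟩ := Ideal.exists_comap_eq_of_mem_minimalPrimes_of_injective hι 𝔭 h𝔭
  obtain ⟨lam, hlam⟩ := exists_algHom_of_isPrime M
  have hintC : ∀ t : T, lam (ι t) ∈ integralClosure ℤ ℂ := fun t => by
    have h1 : IsIntegral ℤ ((lam : A →+* ℂ).comp ι t) :=
      IsIntegral.map ((lam : A →+* ℂ).comp ι).toIntAlgHom (hint t)
    exact h1
  let χ : T →+* integralClosure ℤ ℂ :=
    ((lam : A →+* ℂ).comp ι).codRestrict (integralClosure ℤ ℂ) hintC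
  have hχ : ∀ t, (χ t : ℂ) = lam (ι t) := fun t => rfl
  have hker : RingHom.ker χ = 𝔭 := by
    ext t
    rw [← hcomap, RingHom.mem_ker, Ideal.mem_comap, ← hlam, RingHom.mem_ker]
    rw [← hχ t]
    exact Subtype.ext_iff
  let _ : Algebra T (integralClosure ℤ ℂ) := χ.toAlgebra
  have : Algebra.IsIntegral T (integralClosure ℤ ℂ) := by
    refine ⟨fun x => ?_⟩
    have h1 : IsIntegral ℤ x := by
      have := x.2
      rw [mem_integralClosure_iff] at this
      exact (isIntegral_algebraMap_iff (A := integralClosure ℤ ℂ) (B := ℂ)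
        Subtype.val_injective).mp this
    exact h1.tower_top
  obtain ⟨Q, hQ, hQc⟩ := Ideal.exists_ideal_over_maximal_of_isIntegral
    (S := integralClosure ℤ ℂ) 𝔪 (by
      change RingHom.ker χ ≤ 𝔪
      rw [hker]; exact hle)
  exact ⟨lam, χ, Q, hQ, hQc, hχ⟩

end Fermat.Agent.Hecke
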