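import Mathlib
import Fermat.Agent.Hecke.Duality
import Fermat.Agent.Hecke.LiftMaximal

set_option autoImplicit false

/-!
# Normalised eigenforms from simultaneous eigenvectors
-/

open ModularFormClass CongruenceSubgroup

namespace Fermat.Agent.Hecke

section Sequences

variable {R : Type*} [CommRing R]

/-- Multiplicativity of a sequence satisfying the Hecke relations. -/
theorem mul_of_coprime_of_hecke (e a : ℕ → R) (h0 : a 0 = 0) (h1 : a 1 = 1)
    (h : ∀ ℓ : ℕ, ℓ.Prime → ∀ n : ℕ,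
      a (ℓ * n) + e ℓ * (if ℓ ∣ n then a (n / ℓ) else 0) = a ℓ * a n) (m : ℕ) :
    ∀ n : ℕ, m.Coprime n → a (m * n) = a m * a n := by
  induction m using Nat.strong_induction_on with
  | _ m ih =>
    intro n hmn
    rcases Nat.eq_zero_or_pos m with rfl | hm
    · rw [zero_mul, h0, zero_mul]
    rcases Nat.eq_or_lt_of_le hm with hm1 | hm1
    · rw [← hm1, Nat.succ_eq_add_one, zero_add, one_mul, h1, one_mul]
    · obtain ⟨ℓ, hℓ, m', rfl⟩ := Nat.exists_prime_and_dvd (n := m) (by omega)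
      have hm' : 0 < m' := Nat.pos_of_ne_zero (by rintro rfl; simp at hm)
      have hlt : m' < ℓ * m' := by nlinarith [hℓ.two_le]
      have hcop' : m'.Coprime n := Nat.Coprime.coprime_dvd_left (dvd_mul_left _ _) hmn
      have hℓn : ℓ.Coprime n := Nat.Coprime.coprime_dvd_left (dvd_mul_right _ _) hmn
      have e1 := h ℓ hℓ (m' * n)
      have e2 := h ℓ hℓ m'
      rw [ih m' hlt n hcop', ← mul_assoc ℓ m' n] at e1
      have hiff : ℓ ∣ m' * n ↔ ℓ ∣ m' := hℓn.dvd_mul_right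
      by_cases hd : ℓ ∣ m'
      · rw [if_pos (hiff.mpr hd)] at e1
        rw [if_pos hd] at e2
        have e3 : m' * n / ℓ = m' / ℓ * n := by
          obtain ⟨c, rfl⟩ := hd
          rw [mul_assoc, Nat.mul_div_cancel_left _ hℓ.pos, Nat.mul_div_cancel_left _ hℓ.pos]
        have e4 := ih (m' / ℓ) (lt_of_le_of_lt (Nat.div_le_self _ _) hlt) n
          (Nat.Coprime.coprime_dvd_left (Nat.div_dvd_of_dvd hd) hcop')
        rw [e3, e4] at e1
        linear_combination e1 - a n * e2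
      · rw [if_neg (fun hc => hd (hiff.mp hc))] at e1
        rw [if_neg hd] at e2
        linear_combination e1 - a n * e2

theorem prime_pow_of_hecke (e a : ℕ → R)
    (h : ∀ ℓ : ℕ, ℓ.Prime → ∀ n : ℕ,
      a (ℓ * n) + e ℓ * (if ℓ ∣ n then a (n / ℓ) else 0) = a ℓ * a n) {ℓ : ℕ} (hℓ : ℓ.Prime)
    (r : ℕ) : a (ℓ ^ (r + 2)) = a ℓ * a (ℓ ^ (r + 1)) - e ℓ * a (ℓ ^ r) := by
  have h1 := h ℓ hℓ (ℓ ^ (r + 1))
  rw [if_pos (dvd_pow_self _ (by omega)), pow_succ ℓ r, Nat.mul_div_cancel _ hℓ.pos,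
    ← pow_succ] at h1
  rw [show ℓ ^ (r + 2) = ℓ * ℓ ^ (r + 1) by ring]
  linear_combination h1

end Sequences

variable {N : ℕ} [NeZero N]

/-- A form with `a₁ = 1` which is an eigenvector of all Hecke operators is a normalised
eigenform. -/
theorem isNormalizedEigenform_of_eigen (f : CuspForm (Gamma0 N) 2) (h1 : qCoeff f 1 = 1)
    (hT : ∀ (ℓ : ℕ) (hℓ : ℓ.Prime) (hℓN : ¬ ℓ ∣ N), ∃ c : ℂ, CuspForm.heckeTLin 2 hℓ hℓN f = c • f)
    (hU : ∀ (ℓ : ℕ) (_ : ℓ.Prime) (hℓN : ℓ ∣ N), ∃ c : ℂ, CuspForm.heckeULin 2 hℓN f = c • f) :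
    f.IsNormalizedEigenform := by
  classical
  have key : ∀ ℓ : ℕ, ℓ.Prime → ∀ n : ℕ,
      qCoeff f (ℓ * n) + (if ℓ ∣ N then 0 else (ℓ : ℂ)) *
        (if ℓ ∣ n then qCoeff f (n / ℓ) else 0) = qCoeff f ℓ * qCoeff f n := by
    intro ℓ hℓ n
    by_cases hℓN : ℓ ∣ N
    · obtain ⟨c, hc⟩ := hU ℓ hℓ hℓN
      have h2 : ∀ m, qCoeff f (m * ℓ) = c * qCoeff f m := fun m => by
        rw [← qCoeff_heckeULin hℓ hℓN, hc, qCoeff_smul]
      have h3 := h2 1
      rw [one_mul, h1, mul_one] at h3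
      rw [if_pos hℓN, zero_mul, add_zero, mul_comm ℓ n, h2, h3]
    · obtain ⟨c, hc⟩ := hT ℓ hℓ hℓN
      have h2 : ∀ m, qCoeff f (m * ℓ) + (if ℓ ∣ m then (ℓ : ℂ) ^ ((2 : ℤ) - 1) *
          qCoeff f (m / ℓ) else 0) = c * qCoeff f m := fun m => by
        rw [← qCoeff_heckeTLin hℓ hℓN, hc, qCoeff_smul]
      have h3 := h2 1
      have hℓ1 : ¬ ℓ ∣ 1 := fun h => hℓ.one_lt.ne' (Nat.dvd_one.mp h)
      rw [one_mul, h1, mul_one, if_neg hℓ1, add_zero] at h3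
      rw [if_neg hℓN, mul_comm ℓ n, h3, ← h2 n]
      have h4 : (ℓ : ℂ) ^ ((2 : ℤ) - 1) = ℓ := by norm_num
      rw [h4]
      split_ifs <;> ring
  refine ⟨h1, fun m n hmn => ?_, fun p r hp hpN => ?_, fun p r hp hpN => ?_⟩
  · exact mul_of_coprime_of_hecke (fun ℓ => if ℓ ∣ N then 0 else (ℓ : ℂ)) (qCoeff f)
      (qCoeff_zero_eq f) h1 key m n hmn
  · have := prime_pow_of_hecke (fun ℓ => if ℓ ∣ N then 0 else (ℓ : ℂ)) (qCoeff f) key hp r
    simpa only [if_neg hpN] using this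
  · have := prime_pow_of_hecke (fun ℓ => if ℓ ∣ N then 0 else (ℓ : ℂ)) (qCoeff f) key hp r
    simpa only [if_pos hpN, zero_mul, sub_zero] using this

theorem heckeAlgebra_le_complexHecke (N : ℕ) [NeZero N] (k : ℤ) (S : Set ℕ) :
    CuspForm.heckeAlgebra N k S ≤ (complexHecke N k).restrictScalars ℤ := by
  refine Algebra.adjoin_le ?_
  exact (CuspForm.heckeGenerators_mono (Set.empty_subset S)).trans Algebra.subset_adjoin

/-- The inclusion of the integral Hecke algebra in the complex one. -/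
noncomputable def toComplexHecke (N : ℕ) [NeZero N] (k : ℤ) (S : Set ℕ) :
    CuspForm.heckeAlgebra N k S →+* complexHecke N k where
  toFun t := ⟨t.1, heckeAlgebra_le_complexHecke N k S t.2⟩
  map_one' := Subtype.ext rfl
  map_mul' _ _ := Subtype.ext rfl
  map_zero' := Subtype.ext rfl
  map_add' _ _ := Subtype.ext rfl

-- NB: proved by `Subtype.coe_mk` and not `rfl`, since the latter is very slow in the kernel.
theorem coe_toComplexHecke (k : ℤ) (S : Set ℕ) (t : CuspForm.heckeAlgebra N k S) :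
    ((toComplexHecke N k S t : complexHecke N k) : Module.End ℂ (CuspForm (Gamma0 N) k)) = t.1 :=
  @Subtype.coe_mk _ (fun x => x ∈ complexHecke N k) t.1 (heckeAlgebra_le_complexHecke N k S t.2)

theorem toComplexHecke_injective (k : ℤ) (S : Set ℕ) :
    Function.Injective (toComplexHecke N k S) := fun a b h =>
  Subtype.ext (by rw [← coe_toComplexHecke k S a, h, coe_toComplexHecke k S b])

/-- **Deligne-Serre lifting for weight two Hecke algebras.** -/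
theorem exists_eigenform_of_isMaximal
    (hint : ∀ t : CuspForm.heckeAlgebra N 2 ∅, IsIntegral ℤ t)
    (𝔪 : Ideal (CuspForm.heckeAlgebra N 2 ∅)) [𝔪.IsMaximal] :
    ∃ (f : CuspForm (Gamma0 N) 2) (χ : CuspForm.heckeAlgebra N 2 ∅ →+* integralClosure ℤ ℂ)
      (𝔪' : Ideal (integralClosure ℤ ℂ)), f.IsNormalizedEigenform ∧ 𝔪'.IsMaximal ∧
      𝔪'.comap χ = 𝔪 ∧ (∀ t : CuspForm.heckeAlgebra N 2 ∅,
        (t : Module.End ℂ (CuspForm (Gamma0 N) 2)) f = (χ t : ℂ) • f) ∧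
      (∀ (ℓ : ℕ) (hℓ : ℓ.Prime) (hℓN : ¬ ℓ ∣ N), (χ (CuspForm.heckeAlgebra.T hℓ hℓN
        (Set.notMem_empty _)) : ℂ) = qCoeff f ℓ) ∧
      (∀ (ℓ : ℕ) (hℓ : ℓ.Prime) (hℓN : ℓ ∣ N), (χ (CuspForm.heckeAlgebra.U hℓ hℓN
        (Set.notMem_empty _)) : ℂ) = qCoeff f ℓ) := by
  obtain ⟨lam, χ, 𝔪', hmax, hcomap, hχ⟩ :=
    exists_lift_of_isMaximal (toComplexHecke N 2 ∅) (toComplexHecke_injective 2 ∅) hint 𝔪
  obtain ⟨f, hf1, hf⟩ := exists_eigenform lam
  have hact : ∀ t : CuspForm.heckeAlgebra N 2 ∅,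
        (t : Module.End ℂ (CuspForm (Gamma0 N) 2)) f = (χ t : ℂ) • f := fun t => by
    rw [hχ t, ← hf (toComplexHecke N 2 ∅ t), coe_toComplexHecke]
  refine ⟨f, χ, 𝔪', ?_, hmax, hcomap, hact, ?_, ?_⟩
  · refine isNormalizedEigenform_of_eigen f hf1 (fun ℓ hℓ hℓN => ?_) (fun ℓ hℓ hℓN => ?_)
    · exact ⟨_, hact (CuspForm.heckeAlgebra.T hℓ hℓN (Set.notMem_empty _))⟩
    · exact ⟨_, hact (CuspForm.heckeAlgebra.U hℓ hℓN (Set.notMem_empty _))⟩
  · intro ℓ hℓ hℓN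
    have h1 := hact (CuspForm.heckeAlgebra.T hℓ hℓN (Set.notMem_empty _))
    rw [CuspForm.heckeAlgebra.coe_T] at h1
    have h2 := qCoeff_heckeTLin hℓ hℓN f 1
    have hℓ1 : ¬ ℓ ∣ 1 := fun h => hℓ.one_lt.ne' (Nat.dvd_one.mp h)
    rw [h1, qCoeff_smul, hf1, mul_one, one_mul, if_neg hℓ1, add_zero] at h2
    exact h2
  · intro ℓ hℓ hℓN
    have h1 := hact (CuspForm.heckeAlgebra.U hℓ hℓN (Set.notMem_empty _))
    rw [CuspForm.heckeAlgebra.coe_U] at h1
    have h2 := qCoeff_heckeULin hℓ hℓN f 1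
    rw [h1, qCoeff_smul, hf1, mul_one, one_mul] at h2
    exact h2

end Fermat.Agent.Hecke
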