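import Mathlib
import Fermat.Prelude.Def_CuspForm_HeckeLocal
import Fermat.Prelude.Def_CuspForm_IntegralLattice

set_option autoImplicit false

/-!
# Integrality of the Hecke algebra from an integral structure
-/

open ModularFormClass CongruenceSubgroup

namespace Fermat.Agent.Hecke

variable {N : ℕ} [NeZero N]

set_option synthInstance.maxHeartbeats 400000 in
theorem isIntegral_of_hasIntegralStructure (hint : CuspForm.HasIntegralStructure N 2) (S : Set ℕ)
    (t : CuspForm.heckeAlgebra N 2 S) : IsIntegral ℤ t := by
  have := CuspForm.intLattice.moduleFinite N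
  have h1 : IsIntegral ℤ ((CuspForm.latticeActionHom N S).toIntAlgHom t) :=
    Algebra.IsIntegral.isIntegral _
  exact (isIntegral_algHom_iff (CuspForm.latticeActionHom N S).toIntAlgHom
    (CuspForm.latticeActionHom_injective N S hint)).mp h1

omit [NeZero N] in
theorem mem_intLattice_iff {k : ℤ} (f : CuspForm (Gamma0 N) k) :
    f ∈ CuspForm.intLattice N k ↔ ∀ n : ℕ, ∃ m : ℤ, qCoeff f n = (m : ℂ) :=
  P2MW.S_CuspForm_intLattice_fg.W3WsD.mem_intLattice_iff f

theorem qIntegralSet_eq (N : ℕ) [NeZero N] :
    CuspForm.qIntegralSet N = (CuspForm.intLattice N 2 : Set (CuspForm (Gamma0 N) 2)) := by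
  ext f
  rw [SetLike.mem_coe, mem_intLattice_iff]
  refine forall_congr' fun n => ?_
  rw [Subring.mem_bot]
  exact exists_congr fun m => eq_comm

theorem hasIntegralStructure_of_hasIntegralBasis (h : CuspForm.HasIntegralBasis N) :
    CuspForm.HasIntegralStructure N 2 := by
  rw [CuspForm.HasIntegralStructure, ← qIntegralSet_eq]
  exact h

end Fermat.Agent.Hecke
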